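import Fermat.Agent.PairCorr.Bounds
import Mathlib.Analysis.SpecialFunctions.Integrals.Basic

/-!
# Oscillatory integrals for Landau's formula

Integrals of `exp (i ω v)`, of series of them, and of `exp (i L v) f v` for a slowly varying `f`,
the last by the shift `v ↦ v + π / L`; the digamma function varies slowly on vertical lines.
-/

set_option autoImplicit false

noncomputable section

namespace FA.ZeroOrdinates

open Complex MeasureTheory Finset Filter Topology FA.ExplicitFormula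

/-- `exp (i ω v)`. -/
def osc (ω v : ℝ) : ℂ := cexp (((ω * v : ℝ) : ℂ) * I)

theorem norm_osc (ω v : ℝ) : ‖osc ω v‖ = 1 := norm_exp_ofReal_mul_I _

theorem continuous_osc (ω : ℝ) : Continuous (osc ω) := by
  unfold osc
  fun_prop

theorem osc_mul (a b v : ℝ) : osc a v * osc b v = osc (a + b) v := by
  rw [osc, osc, osc, ← Complex.exp_add]
  congr 1
  push_cast
  ring

theorem osc_zero (v : ℝ) : osc 0 v = 1 := by simp [osc]

/-- `x ^ (σ + iv) = x ^ σ exp (i v log x)`. -/
theorem cpow_line {x : ℝ} (hx : 0 < x) (σ v : ℝ) :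
    (x : ℂ) ^ ((σ : ℂ) + v * I) = ((x ^ σ : ℝ) : ℂ) * osc (Real.log x) v := by
  have hx' : (x : ℂ) ≠ 0 := ofReal_ne_zero.2 hx.ne'
  rw [cpow_add _ _ hx', ← ofReal_cpow hx.le, cpow_def_of_ne_zero hx', ← ofReal_log hx.le, osc]
  congr 2
  push_cast
  ring

theorem term_line (f : ℕ → ℂ) (σ v : ℝ) (n : ℕ) :
    LSeries.term f ((σ : ℂ) + v * I) n = LSeries.term f (σ : ℂ) n * osc (-Real.log n) v := by
  rcases eq_or_ne n 0 with rfl | hn
  · simp
  have hn' : (0 : ℝ) < n := by exact_mod_cast Nat.pos_of_ne_zero hn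
  have h := cpow_line hn' σ v
  rw [ofReal_natCast] at h
  have h0 : ((n : ℂ)) ^ (σ : ℂ) = (((n : ℝ) ^ σ : ℝ) : ℂ) := by
    rw [ofReal_cpow hn'.le, ofReal_natCast]
  have hinv : osc (-Real.log n) v = (osc (Real.log n) v)⁻¹ := by
    rw [osc, osc, ← Complex.exp_neg]
    congr 1
    push_cast
    ring
  rw [LSeries.term_of_ne_zero hn, LSeries.term_of_ne_zero hn, h, h0, hinv]
  field_simp

/-- `|∫ exp (i ω v)| ≤ 2 / |ω|`. -/
theorem norm_integral_osc_le {ω : ℝ} (hω : ω ≠ 0) (a b : ℝ) :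
    ‖∫ v in a..b, osc ω v‖ ≤ 2 / |ω| := by
  have hc : (ω : ℂ) * I ≠ 0 := mul_ne_zero (ofReal_ne_zero.2 hω) I_ne_zero
  have e : ∀ v : ℝ, osc ω v = cexp ((ω : ℂ) * I * (v : ℂ)) := fun v => by
    rw [osc]
    congr 1
    push_cast
    ring
  simp only [e, integral_exp_mul_complex hc, norm_div, norm_mul, Complex.norm_real, norm_I,
    mul_one, Real.norm_eq_abs]
  refine div_le_div_of_nonneg_right ((norm_sub_le _ _).trans (le_of_eq ?_)) (abs_nonneg ω)
  rw [← e, ← e, norm_osc, norm_osc]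
  norm_num

theorem hasSum_integral_series {c : ℕ → ℂ} {ω : ℕ → ℝ} (hc : Summable fun n => ‖c n‖)
    (a b : ℝ) :
    HasSum (fun n => c n * ∫ v in a..b, osc (ω n) v)
      (∫ v in a..b, ∑' n, c n * osc (ω n) v) := by
  simp only [← intervalIntegral.integral_const_mul]
  refine intervalIntegral.hasSum_integral_of_dominated_convergence (fun n _ => ‖c n‖)
    (fun n => ((continuous_osc _).const_smul (c n)).aestronglyMeasurable)
    (fun n => Eventually.of_forall fun t _ => by rw [norm_mul, norm_osc, mul_one])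
    (Eventually.of_forall fun t _ => hc) intervalIntegrable_const
    (Eventually.of_forall fun t _ => Summable.hasSum ?_)
  exact Summable.of_norm (hc.congr fun n => by rw [norm_mul, norm_osc, mul_one])

/-- Frequencies away from `0` integrate to `O (1)`. -/
theorem norm_integral_series_le {c : ℕ → ℂ} {ω : ℕ → ℝ} (hc : Summable fun n => ‖c n‖) {δ : ℝ}
    (hδ : 0 < δ) (hω : ∀ n, c n ≠ 0 → δ ≤ |ω n|) (a b : ℝ) :
    ‖∫ v in a..b, ∑' n, c n * osc (ω n) v‖ ≤ 2 / δ * ∑' n, ‖c n‖ := by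
  refine (hasSum_integral_series hc a b).norm_le_of_bounded (hc.hasSum.mul_left (2 / δ))
    fun n => ?_
  rcases eq_or_ne (c n) 0 with h | h
  · simp [h]
  have h1 := hω n h
  rw [norm_mul, mul_comm (2 / δ)]
  refine mul_le_mul_of_nonneg_left ((norm_integral_osc_le ?_ a b).trans ?_) (norm_nonneg _)
  · exact abs_pos.1 (hδ.trans_le h1)
  · exact div_le_div_of_nonneg_left two_pos.le hδ h1

/-- **The shift by `π / L`.** -/
theorem norm_integral_osc_mul_le {L C M lo hi : ℝ} (hL : 0 < L) (hlo : 2 ≤ lo) (hle : lo ≤ hi)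
    {f : ℝ → ℂ} (hf : Continuous f) (hM : ∀ v ∈ Set.Icc lo (hi + Real.pi / L), ‖f v‖ ≤ M)
    (hlip : ∀ v, 2 ≤ v → ‖f (v + Real.pi / L) - f v‖ ≤ C * (Real.pi / L) / v) :
    ‖∫ v in lo..hi, osc L v * f v‖ ≤ Real.pi / L * (M + C * Real.log (hi / lo)) := by
  obtain ⟨h, hh⟩ : ∃ h, h = Real.pi / L := ⟨_, rfl⟩
  have hh0 : 0 < h := hh ▸ div_pos Real.pi_pos hL
  rw [← hh] at hM hlip ⊢
  obtain ⟨g, hg⟩ : ∃ g : ℝ → ℂ, g = fun v => osc L v * f v := ⟨_, rfl⟩
  have hgc : Continuous g := hg ▸ (continuous_osc L).mul hf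
  have hgi : ∀ p q : ℝ, IntervalIntegrable g volume p q := fun p q => hgc.intervalIntegrable p q
  have hflip : ∀ v, g (v + h) = -(osc L v * f (v + h)) := fun v => by
    have e : osc L (v + h) = -osc L v := by
      have e1 : L * h = Real.pi := by rw [hh]; field_simp
      rw [osc, osc, mul_add, e1, ofReal_add, add_mul, Complex.exp_add, Complex.exp_pi_mul_I]
      ring
    rw [hg]
    simp only [e]
    ring
  have hshift : (∫ v in lo..hi, g v) + ∫ v in lo + h..hi + h, g v =
      ∫ v in lo..hi, osc L v * (f v - f (v + h)) := by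
    have hi1 : IntervalIntegrable (fun v => g (v + h)) volume lo hi :=
      (hgc.comp (continuous_id.add continuous_const)).intervalIntegrable _ _
    rw [← intervalIntegral.integral_comp_add_right (f := g) h,
      ← intervalIntegral.integral_add (hgi _ _) hi1]
    refine intervalIntegral.integral_congr fun v _ => ?_
    simp only [hflip]
    rw [hg]
    ring
  have hsplit : (∫ v in lo..lo + h, g v) + ∫ v in lo + h..hi + h, g v =
      (∫ v in lo..hi, g v) + ∫ v in hi..hi + h, g v := by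
    rw [intervalIntegral.integral_add_adjacent_intervals (hgi _ _) (hgi _ _),
      intervalIntegral.integral_add_adjacent_intervals (hgi _ _) (hgi _ _)]
  have hend : ∀ p, lo ≤ p → p ≤ hi → ‖∫ v in p..p + h, g v‖ ≤ M * h := fun p h1 h2 => by
    refine (intervalIntegral.norm_integral_le_of_norm_le_const (C := M) fun v hv => ?_).trans
      (le_of_eq (by rw [add_sub_cancel_left, abs_of_pos hh0]))
    rw [Set.uIoc_of_le (by linarith)] at hv
    rw [hg]
    simp only [norm_mul, norm_osc, one_mul]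
    exact hM v ⟨by linarith [hv.1], by linarith [hv.2]⟩
  have hmid : ‖∫ v in lo..hi, osc L v * (f v - f (v + h))‖ ≤ C * h * Real.log (hi / lo) := by
    rw [← integral_inv_of_pos (by linarith) (show 0 < hi by linarith),
      ← intervalIntegral.integral_const_mul]
    refine intervalIntegral.norm_integral_le_of_norm_le hle (Eventually.of_forall fun v hv => ?_)
      ((intervalIntegral.intervalIntegrable_inv (fun v hv => ?_) continuousOn_id).const_mul _)
    · rw [norm_mul, norm_osc, one_mul, norm_sub_rev, ← div_eq_mul_inv]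
      exact hlip v (by linarith [hv.1])
    · rw [Set.uIcc_of_le hle] at hv
      show v ≠ 0
      linarith [hv.1]
  have e : 2 * ∫ v in lo..hi, g v = (∫ v in lo..hi, osc L v * (f v - f (v + h))) +
      ((∫ v in lo..lo + h, g v) - ∫ v in hi..hi + h, g v) := by
    linear_combination hshift - hsplit
  have h2 := congrArg (‖·‖) e
  simp only [norm_mul, RCLike.norm_ofNat] at h2
  have h3 := (norm_add_le _ _).trans (add_le_add hmid ((norm_sub_le _ _).trans
    (add_le_add (hend lo le_rfl hle) (hend hi hle le_rfl))))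
  rw [← h2] at h3
  rw [hg] at h3
  have h4 : 0 ≤ C * h * Real.log (hi / lo) := (norm_nonneg _).trans hmid
  linarith

/-- **`Γ'/Γ` varies slowly on vertical lines.** -/
theorem norm_digamma_sub_le {z w : ℂ} {Y : ℝ} (hz : 0 < z.re) (hw : 0 < w.re) (hY : 1 ≤ Y)
    (hzY : Y ≤ |z.im|) (hwY : Y ≤ |w.im|) :
    ‖deriv Complex.Gamma z / Complex.Gamma z - deriv Complex.Gamma w / Complex.Gamma w‖ ≤
      5 * ‖z - w‖ / Y := by
  have hY0 : 0 < Y := by linarith
  have hbig : ∀ (u : ℂ) (k : ℕ), 0 < u.re → Y ≤ |u.im| →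
      ((k : ℝ) + 1 + Y) / 2 ≤ ‖u + ((k : ℂ) + 1)‖ := fun u k hu hi => by
    have h1 := re_le_norm (u + ((k : ℂ) + 1))
    have h2 := abs_im_le_norm (u + ((k : ℂ) + 1))
    simp only [add_re, natCast_re, one_re, add_im, natCast_im, one_im, add_zero] at h1 h2
    linarith
  obtain ⟨P, hP⟩ : ∃ P : ℕ → ℝ, P = fun k : ℕ => -(4 / ((k : ℝ) + Y)) := ⟨_, rfl⟩
  have hterm : ∀ k : ℕ, ‖(w + ((k : ℂ) + 1))⁻¹ - (z + ((k : ℂ) + 1))⁻¹‖ ≤
      ‖z - w‖ * (P (k + 1) - P k) := by
    intro k
    have hk : (0 : ℝ) < (k : ℝ) + 1 + Y := by positivity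
    have hk' : (0 : ℝ) < (k : ℝ) + Y := by positivity
    have hzk := hbig z k hz hzY
    have hwk := hbig w k hw hwY
    have hz0 : z + ((k : ℂ) + 1) ≠ 0 := norm_pos_iff.1 (lt_of_lt_of_le (by linarith) hzk)
    have hw0 : w + ((k : ℂ) + 1) ≠ 0 := norm_pos_iff.1 (lt_of_lt_of_le (by linarith) hwk)
    rw [inv_sub_inv hw0 hz0, norm_div, norm_mul,
      show z + ((k : ℂ) + 1) - (w + ((k : ℂ) + 1)) = z - w by ring, div_eq_mul_inv]
    refine mul_le_mul_of_nonneg_left ?_ (norm_nonneg _)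
    have e : P (k + 1) - P k = 4 / (((k : ℝ) + Y) * ((k : ℝ) + 1 + Y)) := by
      rw [hP]
      push_cast
      field_simp
      ring
    rw [e, ← one_div, div_le_div_iff₀ (lt_of_lt_of_le (by positivity)
      (mul_le_mul hwk hzk (by linarith) (norm_nonneg _))) (by positivity)]
    nlinarith [mul_le_mul hwk hzk (by linarith) (norm_nonneg _)]
  have hS : HasSum (fun k : ℕ => (w + ((k : ℂ) + 1))⁻¹ - (z + ((k : ℂ) + 1))⁻¹)
      ((deriv Complex.Gamma z / Complex.Gamma z + z⁻¹) -
        (deriv Complex.Gamma w / Complex.Gamma w + w⁻¹)) :=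
    ((hasSum_digamma hz).sub (hasSum_digamma hw)).congr_fun fun k => by ring
  have hle : ‖(deriv Complex.Gamma z / Complex.Gamma z + z⁻¹) -
      (deriv Complex.Gamma w / Complex.Gamma w + w⁻¹)‖ ≤ ‖z - w‖ * (4 / Y) := by
    refine le_of_tendsto' hS.tendsto_sum_nat.norm fun N => (norm_sum_le _ _).trans
      ((sum_le_sum fun k _ => hterm k).trans ?_)
    rw [← mul_sum, sum_range_sub P]
    refine mul_le_mul_of_nonneg_left ?_ (norm_nonneg _)
    rw [hP]
    simp only [Nat.cast_zero, zero_add]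
    have : 0 ≤ 4 / ((N : ℝ) + Y) := by positivity
    linarith
  have hz0 : z ≠ 0 := fun h => by rw [h] at hz; simp at hz
  have hw0 : w ≠ 0 := fun h => by rw [h] at hw; simp at hw
  have hinv : ‖w⁻¹ - z⁻¹‖ ≤ ‖z - w‖ / Y := by
    rw [inv_sub_inv hw0 hz0, norm_div, norm_mul]
    refine div_le_div_of_nonneg_left (norm_nonneg _) hY0 ?_
    nlinarith [hzY.trans (abs_im_le_norm z), hwY.trans (abs_im_le_norm w)]
  have e : deriv Complex.Gamma z / Complex.Gamma z - deriv Complex.Gamma w / Complex.Gamma w =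
      ((deriv Complex.Gamma z / Complex.Gamma z + z⁻¹) -
        (deriv Complex.Gamma w / Complex.Gamma w + w⁻¹)) + (w⁻¹ - z⁻¹) := by ring
  rw [e]
  refine (norm_add_le _ _).trans ((add_le_add hle hinv).trans (le_of_eq ?_))
  ring

/-- `gammaReg` varies slowly on vertical lines. -/
theorem norm_gammaReg_sub_le {s t : ℂ} {Y : ℝ} (hs : -2 < s.re) (ht : -2 < t.re) (hY : 2 ≤ Y)
    (hsY : Y ≤ |s.im|) (htY : Y ≤ |t.im|) :
    ‖gammaReg s - gammaReg t‖ ≤ 5 / 2 * ‖s - t‖ / Y := by
  have h := norm_digamma_sub_le (z := s / 2 + 1) (w := t / 2 + 1) (Y := Y / 2)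
    (by simp; linarith) (by simp; linarith) (by linarith)
    (by simp [abs_div]; linarith) (by simp [abs_div]; linarith)
  have h2 : ‖s / 2 + 1 - (t / 2 + 1)‖ = ‖s - t‖ / 2 := by
    rw [show s / 2 + 1 - (t / 2 + 1) = (s - t) / 2 by ring, norm_div, Complex.norm_two]
  rw [h2] at h
  have e : gammaReg s - gammaReg t = (deriv Complex.Gamma (s / 2 + 1) / Complex.Gamma (s / 2 + 1) -
      deriv Complex.Gamma (t / 2 + 1) / Complex.Gamma (t / 2 + 1)) / 2 := by
    rw [gammaReg, gammaReg]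
    ring
  rw [e, norm_div, Complex.norm_two, div_le_iff₀ two_pos]
  refine h.trans (le_of_eq ?_)
  field_simp

end FA.ZeroOrdinates

end
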