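import Fermat.Agent.ZeroOrdinates.Oscillatory
import Mathlib.NumberTheory.LSeries.Dirichlet

/-!
# The vertical sides in Landau's formula

For `x > 1`: `∫ x ^ (3/2 + iv) (-ζ'/ζ) (3/2 + iv) dv = Λ x (hi - lo) + O (1)` and
`∫ x ^ (-1/2 + iv) (-ζ'/ζ) (-1/2 + iv) dv = O (log hi)` over `lo ≤ v ≤ hi`.
-/

set_option autoImplicit false

noncomputable section

namespace FA.ZeroOrdinates

open Complex MeasureTheory Finset Filter Topology
open FA.ExplicitFormula FA.ZeroFree FA.PairCorrelation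
open scoped ArithmeticFunction.vonMangoldt

/-- `Λ x` for a real `x`: zero unless `x` is a natural number. -/
def lamReal (x : ℝ) : ℝ := if (⌊x⌋₊ : ℝ) = x then Λ ⌊x⌋₊ else 0

theorem lamReal_natCast (n : ℕ) : lamReal n = Λ n := by simp [lamReal]

theorem lamReal_of_ne {x : ℝ} (h : ∀ n : ℕ, (n : ℝ) ≠ x) : lamReal x = 0 := if_neg (h _)

/-- The terms of `-ζ'/ζ` on `re s = 3/2`, times `x ^ (3/2)`. -/
def rightCoef (x : ℝ) (n : ℕ) : ℂ :=
  ((x ^ (3 / 2 : ℝ) : ℝ) : ℂ) * LSeries.term (fun n => ((Λ n : ℝ) : ℂ)) ((3 / 2 : ℝ) : ℂ) n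

theorem summable_term_vonMangoldt :
    Summable fun n => ‖LSeries.term (fun n => ((Λ n : ℝ) : ℂ)) ((3 / 2 : ℝ) : ℂ) n‖ :=
  Summable.norm (ArithmeticFunction.LSeriesSummable_vonMangoldt
    (by rw [ofReal_re]; norm_num))

theorem summable_rightCoef (x : ℝ) : Summable fun n => ‖rightCoef x n‖ := by
  simp only [rightCoef, norm_mul]
  exact summable_term_vonMangoldt.mul_left _

theorem negLogDeriv_right (v : ℝ) :
    negLogDeriv (((3 / 2 : ℝ) : ℂ) + v * I) = ∑' n,
      LSeries.term (fun n => ((Λ n : ℝ) : ℂ)) ((3 / 2 : ℝ) : ℂ) n * osc (-Real.log n) v := by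
  obtain ⟨s, hs⟩ : ∃ s : ℂ, s = ((3 / 2 : ℝ) : ℂ) + v * I := ⟨_, rfl⟩
  have hre : 1 < s.re := by simp [hs]; norm_num
  rw [← hs, negLogDeriv_eq (by linarith) (fun h => by rw [h] at hre; simp at hre)
    (riemannZeta_ne_zero_of_one_le_re hre.le), ← neg_div,
    ← ArithmeticFunction.LSeries_vonMangoldt_eq_deriv_riemannZeta_div hre, LSeries]
  exact tsum_congr fun n => hs ▸ term_line _ _ _ _

theorem exists_freq_ge {x : ℝ} (hx : 1 < x) : ∃ δ, 0 < δ ∧
    ∀ n : ℕ, 0 < n → (n : ℝ) ≠ x → δ ≤ |Real.log x - Real.log n| := by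
  classical
  obtain ⟨m, hm⟩ : ∃ m, m = ⌊x⌋₊ := ⟨_, rfl⟩
  have hm1 : x < (m : ℝ) + 1 := hm ▸ Nat.lt_floor_add_one x
  obtain ⟨S, hS⟩ : ∃ S : Finset ℝ, S = insert (Real.log (((m : ℝ) + 1) / x))
      (((range (m + 1)).filter fun n : ℕ => 0 < n ∧ (n : ℝ) ≠ x).image
        fun n : ℕ => |Real.log x - Real.log n|) := ⟨_, rfl⟩
  have hne : S.Nonempty := hS ▸ insert_nonempty _ _
  refine ⟨S.min' hne, (lt_min'_iff _ _).2 fun y hy => ?_, fun n hn hnx => ?_⟩
  · rw [hS, mem_insert, mem_image] at hy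
    rcases hy with rfl | ⟨n, hn, rfl⟩
    · exact Real.log_pos ((one_lt_div (by linarith)).2 hm1)
    · rw [mem_filter] at hn
      refine abs_pos.2 (sub_ne_zero.2 fun h => hn.2.2 ?_)
      exact (Real.log_injOn_pos (Set.mem_Ioi.2 (by linarith))
        (Set.mem_Ioi.2 (Nat.cast_pos.2 hn.2.1)) h).symm
  · rcases le_or_gt n m with h | h
    · exact min'_le _ _ (by
        rw [hS]
        exact mem_insert_of_mem (mem_image.2 ⟨n, mem_filter.2
          ⟨mem_range.2 (Nat.lt_succ_of_le h), hn, hnx⟩, rfl⟩))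
    · have h1 : ((m : ℝ) + 1) ≤ n := by exact_mod_cast h
      refine (min'_le _ _ (hS ▸ mem_insert_self _ _)).trans ?_
      rw [Real.log_div (by positivity) (by linarith), abs_sub_comm]
      refine le_trans ?_ (le_abs_self _)
      linarith [Real.log_le_log (by positivity) h1]

/-- **The line `re s = 3/2`.** -/
theorem exists_integral_right {x : ℝ} (hx : 1 < x) : ∃ C, 0 ≤ C ∧ ∀ lo hi : ℝ,
    ‖(∫ v in lo..hi, (x : ℂ) ^ (((3 / 2 : ℝ) : ℂ) + v * I) *
        negLogDeriv (((3 / 2 : ℝ) : ℂ) + v * I)) - ((lamReal x * (hi - lo) : ℝ) : ℂ)‖ ≤ C := by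
  classical
  have hx0 : 0 < x := by linarith
  obtain ⟨δ, hδ, hfreq⟩ := exists_freq_ge hx
  obtain ⟨ω, hω⟩ : ∃ ω : ℕ → ℝ, ω = fun n : ℕ => Real.log x - Real.log n := ⟨_, rfl⟩
  obtain ⟨c, hc⟩ : ∃ c, c = rightCoef x := ⟨_, rfl⟩
  obtain ⟨d, hd⟩ : ∃ d : ℕ → ℂ, d = fun n : ℕ => if (n : ℝ) = x then 0 else c n := ⟨_, rfl⟩
  have hcn : Summable fun n => ‖c n‖ := hc ▸ summable_rightCoef x
  have hdn : Summable fun n => ‖d n‖ := hcn.of_nonneg_of_le (fun n => norm_nonneg _) fun n => by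
    simp only [hd]
    split_ifs <;> simp
  have hdω : ∀ n, d n ≠ 0 → δ ≤ |ω n| := fun n hn => by
    simp only [hd, ne_eq, ite_eq_left_iff, Classical.not_imp] at hn
    obtain ⟨h1, h2⟩ := hn
    rw [hω]
    refine hfreq n (Nat.pos_of_ne_zero fun h0 => h2 ?_) h1
    rw [hc, rightCoef, h0, LSeries.term_zero, mul_zero]
  have hint : ∀ v : ℝ, (x : ℂ) ^ (((3 / 2 : ℝ) : ℂ) + v * I) *
      negLogDeriv (((3 / 2 : ℝ) : ℂ) + v * I) =
        ((lamReal x : ℝ) : ℂ) + ∑' n, d n * osc (ω n) v := by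
    intro v
    rw [cpow_line hx0, negLogDeriv_right, ← tsum_mul_left]
    have e : ∀ n, ((x ^ (3 / 2 : ℝ) : ℝ) : ℂ) * osc (Real.log x) v *
        (LSeries.term (fun n => ((Λ n : ℝ) : ℂ)) ((3 / 2 : ℝ) : ℂ) n * osc (-Real.log n) v) =
        c n * osc (ω n) v := fun n => by
      simp only [hω, hc, rightCoef, sub_eq_add_neg, ← osc_mul]
      ring
    simp only [e]
    by_cases hN : (⌊x⌋₊ : ℝ) = x
    · have hs : Summable fun n => c n * osc (ω n) v :=
        Summable.of_norm (hcn.congr fun n => by rw [norm_mul, norm_osc, mul_one])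
      rw [hs.tsum_eq_add_tsum_ite ⌊x⌋₊, lamReal, if_pos hN]
      congr 1
      · have hm0 : (⌊x⌋₊) ≠ 0 := fun h => by rw [h, Nat.cast_zero] at hN; linarith
        have hω0 : ω ⌊x⌋₊ = 0 := by simp only [hω, hN, sub_self]
        have h32 : ((x : ℂ)) ^ ((3 / 2 : ℝ) : ℂ) = ((x ^ (3 / 2 : ℝ) : ℝ) : ℂ) :=
          (ofReal_cpow hx0.le _).symm
        rw [hω0, osc_zero, mul_one, hc, rightCoef, LSeries.term_of_ne_zero hm0,
          show ((⌊x⌋₊ : ℕ) : ℂ) = (x : ℂ) by rw [← ofReal_natCast, hN], h32]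
        have : ((x ^ (3 / 2 : ℝ) : ℝ) : ℂ) ≠ 0 :=
          ofReal_ne_zero.2 (Real.rpow_pos_of_pos hx0 _).ne'
        field_simp
      · refine tsum_congr fun n => ?_
        have hiff : n = ⌊x⌋₊ ↔ (n : ℝ) = x := by rw [← Nat.cast_inj (R := ℝ), hN]
        simp only [hd, hiff]
        split_ifs <;> simp
    · have hne : ∀ n : ℕ, (n : ℝ) ≠ x := fun n h => hN (by rw [← h, Nat.floor_natCast])
      rw [lamReal, if_neg hN, ofReal_zero, zero_add]
      exact tsum_congr fun n => by simp [hd, hne n]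
  refine ⟨2 / δ * ∑' n, ‖d n‖, by positivity, fun lo hi => ?_⟩
  have hgi : IntervalIntegrable (fun v => ∑' n, d n * osc (ω n) v) volume lo hi :=
    (continuous_tsum (f := fun n v => d n * osc (ω n) v)
      (fun n => continuous_const.mul (continuous_osc _)) hdn fun n v => by
      rw [norm_mul, norm_osc, mul_one]).intervalIntegrable _ _
  rw [intervalIntegral.integral_congr (g := fun v => ((lamReal x : ℝ) : ℂ) +
    ∑' n, d n * osc (ω n) v) fun v _ => hint v,
    intervalIntegral.integral_add intervalIntegrable_const hgi, intervalIntegral.integral_const,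
    Complex.real_smul]
  refine le_trans (le_of_eq ?_) (norm_integral_series_le hdn hδ hdω lo hi)
  congr 1
  push_cast
  ring

/-- The digamma part on `re s = -1/2`. -/
def leftSmooth (v : ℝ) : ℂ :=
  gammaReg (((3 / 2 : ℝ) : ℂ) + ((-v : ℝ) : ℂ) * I) + gammaReg (((-1 / 2 : ℝ) : ℂ) + v * I)

theorem continuous_leftSmooth : Continuous leftSmooth := by
  refine continuous_iff_continuousAt.2 fun v => ContinuousAt.add ?_ ?_
  · exact ContinuousAt.comp' (g := gammaReg)
      (f := fun u : ℝ => ((3 / 2 : ℝ) : ℂ) + ((-u : ℝ) : ℂ) * I)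
      (differentiableAt_gammaReg (by simp; norm_num)).continuousAt (by fun_prop)
  · exact ContinuousAt.comp' (g := gammaReg)
      (f := fun u : ℝ => ((-1 / 2 : ℝ) : ℂ) + (u : ℂ) * I)
      (differentiableAt_gammaReg (by simp; norm_num)).continuousAt (by fun_prop)

theorem norm_leftSmooth_le (v : ℝ) : ‖leftSmooth v‖ ≤ 26 + Real.log (|v| + 2) := by
  have h0 : 0 ≤ Real.log (|v| + 2) := Real.log_nonneg (by linarith [abs_nonneg v])
  have h : ∀ z : ℂ, -3 / 2 ≤ z.re → z.re ≤ 6 → |z.im| = |v| →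
      ‖gammaReg z‖ ≤ 13 + Real.log (|v| + 2) / 2 := fun z h1 h2 h3 => by
    have h4 := norm_gammaReg_sub_log_le h1 h2
    rw [h3] at h4
    refine (norm_le_norm_add_norm_sub' (gammaReg z)
      ((Real.log (|v| + 2) / 2 : ℝ) : ℂ)).trans ?_
    rw [Complex.norm_real, Real.norm_of_nonneg (by positivity)] at *
    linarith
  refine (norm_add_le _ _).trans ((add_le_add (h _ ?_ ?_ ?_) (h _ ?_ ?_ ?_)).trans
    (le_of_eq (by ring))) <;> simp <;> norm_num

theorem norm_leftSmooth_sub_le {v h : ℝ} (hv : 2 ≤ v) (hh : 0 ≤ h) :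
    ‖leftSmooth (v + h) - leftSmooth v‖ ≤ 5 * h / v := by
  rw [leftSmooth, leftSmooth, add_sub_add_comm]
  have hn : ∀ p q : ℝ, ‖(p : ℂ) + ((q : ℝ) : ℂ) * I - (p : ℂ)‖ = |q| := fun p q => by simp
  refine (norm_add_le _ _).trans ((add_le_add
    (norm_gammaReg_sub_le (Y := v) (by simp; norm_num) (by simp; norm_num) hv ?_ ?_)
    (norm_gammaReg_sub_le (Y := v) (by simp; norm_num) (by simp; norm_num) hv ?_ ?_)).trans
      (le_of_eq ?_))
  · simp only [add_im, ofReal_im, mul_im, ofReal_re, I_re, I_im, mul_zero, mul_one, zero_add,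
      add_zero, abs_neg]
    rw [abs_of_nonneg (by linarith)]
    linarith
  · simp only [add_im, ofReal_im, mul_im, ofReal_re, I_re, I_im, mul_zero, mul_one, zero_add,
      add_zero, abs_neg]
    rw [abs_of_nonneg (by linarith)]
  · simp only [add_im, ofReal_im, mul_im, ofReal_re, I_re, I_im, mul_zero, mul_one, zero_add,
      add_zero]
    rw [abs_of_nonneg (by linarith)]
    linarith
  · simp only [add_im, ofReal_im, mul_im, ofReal_re, I_re, I_im, mul_zero, mul_one, zero_add,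
      add_zero]
    rw [abs_of_nonneg (by linarith)]
  · have e1 : ∀ p a b : ℝ, ‖(p : ℂ) + (a : ℂ) * I - ((p : ℂ) + (b : ℂ) * I)‖ = |a - b| :=
      fun p a b => by
        rw [show (p : ℂ) + (a : ℂ) * I - ((p : ℂ) + (b : ℂ) * I) = ((a - b : ℝ) : ℂ) * I by
          push_cast; ring, norm_mul, Complex.norm_real, norm_I, mul_one, Real.norm_eq_abs]
    rw [e1, e1, show -(v + h) - -v = -h by ring, abs_neg, add_sub_cancel_left, abs_of_nonneg hh]
    ring

/-- **The line `re s = -1/2`.** -/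
theorem exists_integral_left_line {x : ℝ} (hx : 1 < x) : ∃ C, 0 ≤ C ∧ ∀ lo hi : ℝ, 2 ≤ lo →
    lo ≤ hi → ‖∫ v in lo..hi, (x : ℂ) ^ (((-1 / 2 : ℝ) : ℂ) + v * I) *
      negLogDeriv (((-1 / 2 : ℝ) : ℂ) + v * I)‖ ≤ C * ell hi := by
  have hx0 : 0 < x := by linarith
  obtain ⟨L, hL⟩ : ∃ L, L = Real.log x := ⟨_, rfl⟩
  have hL0 : 0 < L := hL ▸ Real.log_pos hx
  obtain ⟨h, hh⟩ : ∃ h, h = Real.pi / L := ⟨_, rfl⟩
  have hh0 : 0 < h := hh ▸ div_pos Real.pi_pos hL0
  obtain ⟨c, hc⟩ : ∃ c : ℕ → ℂ,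
      c = LSeries.term (fun n => ((Λ n : ℝ) : ℂ)) ((3 / 2 : ℝ) : ℂ) := ⟨_, rfl⟩
  have hcn : Summable fun n => ‖c n‖ := hc ▸ summable_term_vonMangoldt
  obtain ⟨S, hS⟩ : ∃ S, S = 2 / L * ∑' n, ‖c n‖ := ⟨_, rfl⟩
  have hS0 : 0 ≤ S := by rw [hS]; positivity
  refine ⟨x ^ (-1 / 2 : ℝ) * (2 + h * (26 + h + 1 + 5) + S),
    mul_nonneg (Real.rpow_nonneg hx0.le _) (by positivity), fun lo hi hlo hle => ?_⟩
  obtain ⟨A, hA⟩ : ∃ A : ℝ → ℂ, A = fun v : ℝ => ((1 / 2 : ℂ) + ((-v : ℝ) : ℂ) * I)⁻¹ +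
      ((-3 / 2 : ℂ) + v * I)⁻¹ := ⟨_, rfl⟩
  have hneA : ∀ (p : ℂ) (q : ℝ), p.re ≠ 0 → p + (q : ℂ) * I ≠ 0 := fun p q hp h0 => hp (by
    simpa using congrArg Complex.re h0)
  have hAc : Continuous A := by
    rw [hA]
    exact ((by fun_prop : Continuous fun v : ℝ => (1 / 2 : ℂ) + ((-v : ℝ) : ℂ) * I).inv₀
      fun v => hneA _ _ (by norm_num)).add
      ((by fun_prop : Continuous fun v : ℝ => (-3 / 2 : ℂ) + v * I).inv₀
        fun v => hneA _ _ (by norm_num))
  have hAle : ∀ v : ℝ, 0 < v → ‖A v‖ ≤ 2 * v⁻¹ := fun v hv => by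
    rw [hA, two_mul]
    refine (norm_add_le _ _).trans (add_le_add ?_ ?_) <;> rw [norm_inv] <;>
      refine inv_anti₀ hv (le_trans (le_of_eq ?_) (abs_im_le_norm _)) <;>
      simp [abs_of_pos hv]
  have hint : ∀ v : ℝ, (x : ℂ) ^ (((-1 / 2 : ℝ) : ℂ) + v * I) *
      negLogDeriv (((-1 / 2 : ℝ) : ℂ) + v * I) = ((x ^ (-1 / 2 : ℝ) : ℝ) : ℂ) *
        (osc L v * A v + osc L v * leftSmooth v - ∑' n, c n * osc (L + Real.log n) v) := by
    intro v
    have e1 : (1 : ℂ) - (((-1 / 2 : ℝ) : ℂ) + v * I) =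
        ((3 / 2 : ℝ) : ℂ) + ((-v : ℝ) : ℂ) * I := by push_cast; ring
    have hre : 1 < (((3 / 2 : ℝ) : ℂ) + ((-v : ℝ) : ℂ) * I).re := by simp; norm_num
    have ez : deriv riemannZeta (((3 / 2 : ℝ) : ℂ) + ((-v : ℝ) : ℂ) * I) /
        riemannZeta (((3 / 2 : ℝ) : ℂ) + ((-v : ℝ) : ℂ) * I) =
        -∑' n, c n * osc (Real.log n) v := by
      have h1 := negLogDeriv_right (-v)
      rw [negLogDeriv_eq (by linarith) (fun h => by rw [h] at hre; simp at hre)
        (riemannZeta_ne_zero_of_one_le_re hre.le)] at h1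
      rw [← neg_neg (deriv riemannZeta _ / _), h1, hc]
      congr 1
      refine tsum_congr fun n => ?_
      congr 1
      rw [osc, osc, neg_mul_neg]
    have e2 : ∑' n, c n * osc (L + Real.log n) v =
        osc L v * ∑' n, c n * osc (Real.log n) v := by
      rw [← tsum_mul_left]
      refine tsum_congr fun n => ?_
      rw [← osc_mul]
      ring
    rw [cpow_line hx0, ← hL, negLogDeriv_reflect (by simp), e1, ez, e2, hA, leftSmooth]
    push_cast
    ring
  have hsc : Continuous fun v : ℝ => ∑' n, c n * osc (L + Real.log n) v :=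
    continuous_tsum (f := fun n v => c n * osc (L + Real.log n) v)
      (fun n => continuous_const.mul (continuous_osc _)) hcn fun n v => by
      rw [norm_mul, norm_osc, mul_one]
  have hAi : IntervalIntegrable (fun v => osc L v * A v) volume lo hi :=
    ((continuous_osc L).mul hAc).intervalIntegrable _ _
  have hBi : IntervalIntegrable (fun v => osc L v * leftSmooth v) volume lo hi :=
    ((continuous_osc L).mul continuous_leftSmooth).intervalIntegrable _ _
  rw [intervalIntegral.integral_congr (g := fun v => ((x ^ (-1 / 2 : ℝ) : ℝ) : ℂ) *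
    (osc L v * A v + osc L v * leftSmooth v - ∑' n, c n * osc (L + Real.log n) v))
    fun v _ => hint v, intervalIntegral.integral_const_mul, intervalIntegral.integral_sub
      (hAi.add hBi) (hsc.intervalIntegrable _ _), intervalIntegral.integral_add hAi hBi,
    norm_mul, Complex.norm_real, Real.norm_of_nonneg (Real.rpow_nonneg hx0.le _), mul_assoc]
  refine mul_le_mul_of_nonneg_left ?_ (Real.rpow_nonneg hx0.le _)
  have hl := four_le_ell hi
  have hlog : Real.log (hi / lo) ≤ ell hi := by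
    rw [ell, abs_of_pos (by linarith)]
    refine Real.log_le_log (div_pos (by linarith) (by linarith)) ((div_le_iff₀ (by linarith)).2 ?_)
    nlinarith
  have b1 : ‖∫ v in lo..hi, osc L v * A v‖ ≤ 2 * ell hi := by
    refine (intervalIntegral.norm_integral_le_of_norm_le hle (g := fun v => 2 * v⁻¹)
      (Eventually.of_forall fun v hv => ?_)
      ((intervalIntegral.intervalIntegrable_inv (fun v hv => ?_)
        continuousOn_id).const_mul _)).trans ?_
    · rw [norm_mul, norm_osc, one_mul]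
      exact hAle v (by linarith [hv.1])
    · rw [Set.uIcc_of_le hle] at hv
      show v ≠ 0
      linarith [hv.1]
    · rw [intervalIntegral.integral_const_mul, integral_inv_of_pos (by linarith) (by linarith)]
      linarith
  have b2 := norm_integral_osc_mul_le (M := 26 + ell hi + h) (C := 5) hL0 hlo hle
    continuous_leftSmooth (fun v hv => ?_) (fun v hv => ?_)
  swap
  · refine (norm_leftSmooth_le v).trans ?_
    rw [← hh] at hv
    have hv0 : 0 < v := by linarith [hv.1]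
    have : Real.log (|v| + 2) ≤ Real.log ((|hi| + 100) * (1 + h)) := by
      refine Real.log_le_log (by positivity) ?_
      rw [abs_of_pos hv0, abs_of_pos (show 0 < hi by linarith)]
      nlinarith [hv.2, mul_pos (show 0 < hi by linarith) hh0]
    rw [Real.log_mul (by positivity) (by positivity)] at this
    have h2 := Real.log_le_sub_one_of_pos (show 0 < 1 + h by linarith)
    show 26 + Real.log (|v| + 2) ≤ 26 + ell hi + h
    rw [ell]
    linarith
  swap
  · rw [← hh]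
    exact norm_leftSmooth_sub_le hv hh0.le
  have b3 : ‖∫ v in lo..hi, ∑' n, c n * osc (L + Real.log n) v‖ ≤ S :=
    hS ▸ norm_integral_series_le hcn hL0 (fun n _ => by
      rw [abs_of_nonneg (add_nonneg hL0.le (Real.log_natCast_nonneg n))]
      linarith [Real.log_natCast_nonneg n]) lo hi
  rw [← hh] at b2
  refine (norm_sub_le _ _).trans ((add_le_add ((norm_add_le _ _).trans (add_le_add b1 b2))
    b3).trans ?_)
  nlinarith [mul_le_mul_of_nonneg_left hlog hh0.le, mul_le_mul_of_nonneg_left hl hS0,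
    mul_le_mul_of_nonneg_left hl (show 0 ≤ h * (26 + h) by positivity)]

end FA.ZeroOrdinates

end
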