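import Fermat.Agent.ZeroOrdinates.Landau
import Fermat.Agent.Equidistribution.Criterion
import Fermat.Agent.Root.SummaryBohrLandau

/-!
# The ordinates of the zeros are equidistributed mod 1

Landau's formula and the theorem of Bohr and Landau give `∑ exp (i a γ) = o (N T)` for every
`a ≠ 0`; Weyl's criterion follows (Rademacher, Hlawka).
-/

set_option autoImplicit false

noncomputable section

namespace FA.ZeroOrdinates

open Complex Finset Filter Topology FA.RiemannMangoldt FA.BohrLandau FA.Equidist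
open FA.ThreePrimes (eAdd)
open scoped Real

/-- `∑ exp (i a γ)` over the zeros up to `T`, with multiplicity. -/
def ordinateSum (a T : ℝ) : ℂ := ∑ ρ ∈ zerosTo T, (zetaMult ρ : ℂ) * osc a ρ.im

/-- The zeros up to `T` with `fract (α γ) ∈ [a, b)`, with multiplicity. -/
def ordinateCount (α a b T : ℝ) : ℕ :=
  ∑ ρ ∈ (zerosTo T).filter (fun ρ => Int.fract (α * ρ.im) ∈ Set.Ico a b), zetaMult ρ

theorem conj_osc (a v : ℝ) : (starRingEnd ℂ) (osc a v) = osc (-a) v := by
  rw [osc, osc, ← Complex.exp_conj, map_mul, Complex.conj_I, Complex.conj_ofReal]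
  congr 1
  push_cast
  ring

theorem tendsto_zeroCount_atTop : Tendsto (fun T : ℝ => (zeroCount T : ℝ)) atTop atTop := by
  refine (FA.RiemannMangoldt.Summary.zeroCount_asymptotic.pos_mul_atTop (by positivity)
    (tendsto_id.atTop_mul_atTop₀ Real.tendsto_log_atTop)).congr' ?_
  filter_upwards [eventually_gt_atTop 1] with T hT
  have h1 : 0 < Real.log T := Real.log_pos hT
  simp only [id_eq]
  field_simp

theorem tendsto_div_zeroCount : Tendsto (fun T : ℝ => T / zeroCount T) atTop (𝓝 0) := by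
  have hN := FA.RiemannMangoldt.Summary.zeroCount_asymptotic
  have hpos : ∀ᶠ T : ℝ in atTop, 1 / (4 * π) < (zeroCount T : ℝ) / (T * Real.log T) :=
    hN.eventually_const_lt (by
      rw [one_div_lt_one_div (by positivity) (by positivity)]
      linarith [Real.pi_pos])
  refine squeeze_zero' ?_ ?_ ((tendsto_const_nhds (x := 4 * π)).div_atTop Real.tendsto_log_atTop)
  · filter_upwards [eventually_gt_atTop 0] with T hT
    positivity
  filter_upwards [hpos, eventually_gt_atTop (1 : ℝ)] with T hT hT1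
  have hl : 0 < Real.log T := Real.log_pos hT1
  rw [lt_div_iff₀ (mul_pos (by linarith) hl)] at hT
  have h0 : 0 < 1 / (4 * π) * (T * Real.log T) := by positivity
  refine (div_le_div_of_nonneg_left (by linarith) h0 hT.le).trans (le_of_eq ?_)
  field_simp

theorem tendsto_powSum_div {x : ℝ} (hx : 1 < x) :
    Tendsto (fun T : ℝ => ‖powSum x T‖ / zeroCount T) atTop (𝓝 0) := by
  obtain ⟨C, hC, h⟩ := exists_landau hx
  have hlim := tendsto_div_zeroCount.const_mul (4 * C + |lamReal x|)
  rw [mul_zero] at hlim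
  refine squeeze_zero' (Eventually.of_forall fun T => by positivity) ?_ hlim
  filter_upwards [eventually_ge_atTop 2] with T hT
  rw [mul_div_assoc']
  refine div_le_div_of_nonneg_right ?_ (Nat.cast_nonneg _)
  have h2 : Real.log T ^ 2 ≤ 4 * T := by
    have h3 := Real.log_le_sub_one_of_pos (Real.sqrt_pos.2 (show 0 < T by linarith))
    rw [Real.log_sqrt (by linarith)] at h3
    have h4 : 0 ≤ Real.log T := Real.log_nonneg (by linarith)
    nlinarith [Real.mul_self_sqrt (show 0 ≤ T by linarith), Real.sqrt_nonneg T]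
  have h5 := norm_le_norm_add_norm_sub' (powSum x T)
    (-((T / (2 * π) * lamReal x : ℝ) : ℂ))
  rw [sub_neg_eq_add, norm_neg, Complex.norm_real, Real.norm_eq_abs, abs_mul,
    abs_of_nonneg (show 0 ≤ T / (2 * π) by positivity)] at h5
  have h6 : T / (2 * π) ≤ T := div_le_self (by linarith) (by linarith [Real.two_le_pi])
  nlinarith [h T hT, mul_le_mul_of_nonneg_left h2 hC,
    mul_le_mul_of_nonneg_right h6 (abs_nonneg (lamReal x))]

theorem tendsto_ordinateSum_pos {a : ℝ} (ha : 0 < a) :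
    Tendsto (fun T : ℝ => ‖ordinateSum a T‖ / zeroCount T) atTop (𝓝 0) := by
  obtain ⟨x, hx⟩ : ∃ x, x = Real.exp a := ⟨_, rfl⟩
  have hx1 : 1 < x := hx ▸ Real.one_lt_exp_iff.2 ha
  have hx0 : 0 < x := by linarith
  have hlx : Real.log x = a := by rw [hx, Real.log_exp]
  rw [Metric.tendsto_atTop]
  intro ε hε
  obtain ⟨η, hη, hcont⟩ := Metric.continuousAt_iff.1
    ((Real.continuous_const_rpow hx0.ne').continuousAt (x := (1 / 2 : ℝ))) (ε / 3) (by linarith)
  have h1 := (tendsto_powSum_div hx1).eventually (eventually_lt_nhds (show 0 < ε / 3 by linarith))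
  have h2 := ((FA.BohrLandau.Summary.almost_all_zeros_near_line hη).const_mul (2 * x)).eventually
    (eventually_lt_nhds (show 2 * x * 0 < ε / 3 by linarith))
  rw [← eventually_atTop]
  filter_upwards [h1, h2, tendsto_zeroCount_atTop.eventually (eventually_gt_atTop 0)]
    with T h1 h2 hN
  rw [Real.dist_0_eq_abs, abs_of_nonneg (by positivity)]
  have hbd : ‖ordinateSum a T‖ ≤
      ‖powSum x T‖ + (ε / 3 * zeroCount T + 2 * x * offLineCount η T) := by
    have hhalf : 1 ≤ x ^ (1 / 2 : ℝ) := Real.one_le_rpow hx1.le (by norm_num)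
    have hdiff : ‖((x ^ (1 / 2 : ℝ) : ℝ) : ℂ) * ordinateSum a T - powSum x T‖ ≤
        ε / 3 * zeroCount T + 2 * x * offLineCount η T := by
      rw [ordinateSum, powSum, mul_sum, ← sum_sub_distrib, zeroCount_eq_sum, mul_sum,
        offLineCount, Nat.cast_sum, mul_sum, sum_filter]
      rw [← zerosTo, ← sum_add_distrib]
      refine norm_sum_le_of_le _ fun ρ hρ => ?_
      obtain ⟨b0, b1⟩ := xiFn_zero_strip (mem_zerosTo.1 hρ).1
      rw [← re_add_im ρ, cpow_line hx0, hlx, re_add_im, show ((x ^ (1 / 2 : ℝ) : ℝ) : ℂ) *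
        ((zetaMult ρ : ℂ) * osc a ρ.im) - (zetaMult ρ : ℂ) *
          (((x ^ ρ.re : ℝ) : ℂ) * osc a ρ.im) =
        (zetaMult ρ : ℂ) * ((x ^ (1 / 2 : ℝ) - x ^ ρ.re : ℝ) : ℂ) * osc a ρ.im by
          push_cast; ring, norm_mul, norm_mul, norm_osc, mul_one, Complex.norm_natCast,
        Complex.norm_real, Real.norm_eq_abs]
      have hm : (0 : ℝ) ≤ zetaMult ρ := Nat.cast_nonneg _
      split_ifs with hoff
      · have : |x ^ (1 / 2 : ℝ) - x ^ ρ.re| ≤ 2 * x := by
          have u1 := Real.rpow_le_rpow_of_exponent_le hx1.le (show (1 / 2 : ℝ) ≤ 1 by norm_num)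
          have u2 := Real.rpow_le_rpow_of_exponent_le hx1.le b1.le
          rw [Real.rpow_one] at u1 u2
          have u3 := Real.rpow_nonneg hx0.le ρ.re
          have u4 := Real.rpow_nonneg hx0.le (1 / 2 : ℝ)
          rw [abs_le]
          constructor <;> linarith
        nlinarith [mul_le_mul_of_nonneg_left this hm, mul_nonneg hε.le hm]
      · rw [add_zero]
        have h4 := hcont (x := ρ.re) (by rw [Real.dist_eq]; exact not_le.1 hoff)
        rw [Real.dist_eq, abs_sub_comm] at h4
        rw [mul_comm (ε / 3)]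
        exact mul_le_mul_of_nonneg_left h4.le hm
    refine le_trans ?_ (le_trans (norm_le_norm_add_norm_sub'
      (((x ^ (1 / 2 : ℝ) : ℝ) : ℂ) * ordinateSum a T) (powSum x T)) (add_le_add le_rfl hdiff))
    rw [norm_mul, Complex.norm_real, Real.norm_of_nonneg (by linarith)]
    exact le_mul_of_one_le_left (norm_nonneg _) hhalf
  rw [div_lt_iff₀ hN]
  rw [div_lt_iff₀ hN] at h1
  rw [mul_div_assoc', div_lt_iff₀ hN] at h2
  linarith

/-- **The exponential means tend to zero.** -/
theorem tendsto_ordinateSum {a : ℝ} (ha : a ≠ 0) :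
    Tendsto (fun T : ℝ => ordinateSum a T / (zeroCount T : ℂ)) atTop (𝓝 0) := by
  rw [tendsto_zero_iff_norm_tendsto_zero]
  simp only [norm_div, Complex.norm_natCast]
  rcases lt_or_gt_of_ne ha with h | h
  · refine (tendsto_ordinateSum_pos (neg_pos.2 h)).congr fun T => ?_
    have e : ordinateSum (-a) T = (starRingEnd ℂ) (ordinateSum a T) := by
      simp only [ordinateSum, map_sum, map_mul, map_natCast, conj_osc]
    rw [e, Complex.norm_conj]
  · exact tendsto_ordinateSum_pos h

/-- An enumeration of the zeros. -/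
theorem exists_zero_index : ∃ f : ℂ → ℕ, Set.InjOn f {ρ | xiFn ρ = 0} := by
  refine Set.countable_iff_exists_injOn.1
    ((Set.countable_iUnion fun n : ℕ => (ExplicitFormula.zerosUpTo n).finite_toSet.countable).mono
      fun ρ hρ => Set.mem_iUnion.2 ⟨⌈|ρ.im|⌉₊, ?_⟩)
  exact ExplicitFormula.mem_zerosUpTo.2 ⟨hρ, Nat.le_ceil _⟩

/-- **The ordinates are equidistributed mod 1.** -/
theorem tendsto_ordinateCount {α : ℝ} (hα : α ≠ 0) {a b : ℝ} (ha : 0 ≤ a) (hab : a ≤ b)
    (hb : b ≤ 1) :
    Tendsto (fun T : ℝ => (ordinateCount α a b T : ℝ) / zeroCount T) atTop (𝓝 (b - a)) := by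
  classical
  obtain ⟨f, hf⟩ := exists_zero_index
  obtain ⟨x, hx⟩ : ∃ x : ℕ → ℝ, x = fun n =>
      α * (Function.invFunOn f {ρ | xiFn ρ = 0} n.unpair.1).im := ⟨_, rfl⟩
  obtain ⟨s, hs⟩ : ∃ s : ℝ → Finset ℕ, s = fun T =>
      ((zerosTo T).sigma fun ρ => range (zetaMult ρ)).image fun p => Nat.pair (f p.1) p.2 :=
    ⟨_, rfl⟩
  have hinj : ∀ T, Set.InjOn (fun p : Σ _ : ℂ, ℕ => Nat.pair (f p.1) p.2)
      ↑((zerosTo T).sigma fun ρ => range (zetaMult ρ)) := by
    rintro T ⟨p, i⟩ hp ⟨q, j⟩ hq h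
    simp only [coe_sigma, Set.mem_sigma_iff, Finset.mem_coe, mem_zerosTo] at hp hq
    obtain ⟨h1, rfl⟩ := Nat.pair_eq_pair.1 h
    obtain rfl := hf hp.1.1 hq.1.1 h1
    rfl
  have hsum : ∀ (T : ℝ) (g : ℝ → ℂ), ∑ n ∈ s T, g (x n) =
      ∑ ρ ∈ zerosTo T, (zetaMult ρ : ℂ) * g (α * ρ.im) := fun T g => by
    simp only [hs]
    rw [sum_image (hinj T), sum_sigma]
    refine sum_congr rfl fun ρ hρ => ?_
    have e : ∀ i, x (Nat.pair (f ρ) i) = α * ρ.im := fun i => by
      simp only [hx, Nat.unpair_pair]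
      rw [hf.leftInvOn_invFunOn (mem_zerosTo.1 hρ).1]
    simp only [e, sum_const, card_range, nsmul_eq_mul]
  have hcard : ∀ T, #(s T) = zeroCount T := fun T => by
    have h1 : ((#(s T) : ℕ) : ℂ) = ((zeroCount T : ℕ) : ℂ) := by
      rw [zeroCount, Nat.cast_sum]
      simpa [zetaMult, zerosTo] using hsum T fun _ => 1
    exact_mod_cast h1
  have hfilter : ∀ T, #((s T).filter fun n => Int.fract (x n) ∈ Set.Ico a b) =
      ordinateCount α a b T := fun T => by
    have h1 : ((#((s T).filter fun n => Int.fract (x n) ∈ Set.Ico a b) : ℕ) : ℂ) =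
        ((ordinateCount α a b T : ℕ) : ℂ) := by
      rw [ordinateCount, sum_filter, card_filter, Nat.cast_sum, Nat.cast_sum]
      push_cast
      refine (hsum T fun t => if Int.fract t ∈ Set.Ico a b then 1 else 0).trans ?_
      refine sum_congr rfl fun ρ _ => ?_
      split_ifs <;> simp
    exact_mod_cast h1
  refine tendsto_iff_seq_tendsto.2 fun u hu => ?_
  have hN : Tendsto (fun N => #(s (u N))) atTop atTop := by
    simp only [hcard]
    exact tendsto_natCast_atTop_iff.1 (tendsto_zeroCount_atTop.comp hu)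
  have hexp : ExpMeanZero (fun N => s (u N)) x := fun h hh => by
    refine ((tendsto_ordinateSum (mul_ne_zero (mul_ne_zero (mul_ne_zero two_ne_zero
      Real.pi_ne_zero) (Int.cast_ne_zero.2 hh)) hα)).comp hu).congr fun N => ?_
    rw [avg, hcard, hsum (u N) fun t => eAdd ((h : ℝ) * t), Function.comp_apply, ordinateSum]
    congr 1
    refine sum_congr rfl fun ρ _ => ?_
    congr 1
    rw [eAdd, osc]
    congr 1
    push_cast
    ring
  refine (hexp.intervalMean hN a b ha hab hb).congr fun N => ?_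
  simp only [Function.comp_apply, hfilter, hcard]

end FA.ZeroOrdinates

end
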