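import Fermat.Agent.ZeroOrdinates.Box
import Fermat.Agent.ZeroOrdinates.Lines
import Fermat.Agent.PairCorr.Bounds

/-!
# Landau's formula

`∑_{0 < im ρ ≤ T} x ^ ρ = -(T / 2π) Λ x + O (log² T)` for every `x > 1` (Landau, 1911).
-/

set_option autoImplicit false

noncomputable section

namespace FA.ZeroOrdinates

open Complex Finset MeasureTheory
open FA.RiemannMangoldt FA.ExplicitFormula FA.ZeroFree FA.BohrLandau FA.PairCorrelation
open scoped Real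

theorem zeroCount_eq_sum (T : ℝ) :
    (zeroCount T : ℝ) = ∑ ρ ∈ zerosTo T, (zetaMult ρ : ℝ) := by
  rw [zeroCount, Nat.cast_sum]
  rfl

theorem norm_cpow_zero_le {x T : ℝ} (hx : 1 ≤ x) {ρ : ℂ} (hρ : ρ ∈ zerosTo T) :
    ‖(zetaMult ρ : ℂ) * (x : ℂ) ^ ρ‖ ≤ x * zetaMult ρ := by
  rw [norm_mul, Complex.norm_natCast, norm_cpow_eq_rpow_re_of_pos (by linarith), mul_comm x]
  refine mul_le_mul_of_nonneg_left ?_ (Nat.cast_nonneg _)
  refine le_trans (Real.rpow_le_rpow_of_exponent_le hx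
    (xiFn_zero_strip (mem_zerosTo.1 hρ).1).2.le) ?_
  rw [Real.rpow_one]

theorem norm_powSum_le {x T : ℝ} (hx : 1 ≤ x) : ‖powSum x T‖ ≤ x * zeroCount T := by
  rw [powSum, zeroCount_eq_sum, mul_sum]
  exact norm_sum_le_of_le _ fun ρ hρ => norm_cpow_zero_le hx hρ

theorem norm_powSum_sub_le {x S T : ℝ} (hx : 1 ≤ x) (h : S ≤ T) :
    ‖powSum x T - powSum x S‖ ≤ x * ((zeroCount T : ℝ) - zeroCount S) := by
  classical
  rw [powSum, powSum, zeroCount_eq_sum, zeroCount_eq_sum, ← sum_sdiff (zerosTo_mono h),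
    add_sub_cancel_right, ← sum_sdiff (zerosTo_mono h), add_sub_cancel_right, mul_sum]
  exact norm_sum_le_of_le _ fun ρ hρ => norm_cpow_zero_le hx (mem_sdiff.1 hρ).1

theorem ell_le_log' {T : ℝ} (hT : 2 ≤ T) : ell T ≤ 7 * Real.log T := by
  rw [show (7 : ℝ) * Real.log T = Real.log (T ^ 7) by rw [Real.log_pow]; norm_num]
  refine Real.log_le_log (by positivity) ?_
  rw [abs_of_nonneg (by linarith)]
  have h : (2 : ℝ) ^ 6 ≤ T ^ 6 := pow_le_pow_left₀ two_pos.le hT 6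
  norm_num at h
  nlinarith

/-- The two horizontal sides. -/
theorem exists_horizontal_shift {x : ℝ} (hx : 1 ≤ x) : ∃ C, 0 ≤ C ∧ ∀ t δ : ℝ, 3 ≤ |t| → 0 < δ →
    δ ≤ 1 → (∀ ρ, xiFn ρ = 0 → δ ≤ |(|ρ.im| - |t|)|) →
      ‖∫ u in (-1 / 2 : ℝ)..3 / 2, (x : ℂ) ^ ((u : ℂ) + t * I) *
        negLogDeriv ((u : ℂ) + t * I)‖ ≤ C * (ell t / δ) := by
  obtain ⟨C, hC, h⟩ := exists_negLogDeriv_horizontal
  refine ⟨2 * (x ^ (3 / 2 : ℝ) * C), mul_nonneg two_pos.le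
    (mul_nonneg (Real.rpow_nonneg (by linarith) _) hC), fun t δ ht hδ hδ1 hgap => ?_⟩
  refine (intervalIntegral.norm_integral_le_of_norm_le_const
    (C := x ^ (3 / 2 : ℝ) * (C * ell t / δ)) fun u hu => ?_).trans (le_of_eq ?_)
  · rw [Set.uIoc_of_le (by norm_num)] at hu
    rw [norm_mul, norm_cpow_eq_rpow_re_of_pos (by linarith)]
    refine mul_le_mul (Real.rpow_le_rpow_of_exponent_le hx ?_)
      (h u t δ (by linarith [hu.1]) (by linarith [hu.2]) ht hδ hδ1 hgap) (norm_nonneg _)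
      (Real.rpow_nonneg (by linarith) _)
    simp
    exact hu.2
  · rw [show |(3 / 2 : ℝ) - -1 / 2| = 2 by norm_num]
    ring

/-- Landau's formula between two heights away from the ordinates. -/
theorem exists_landau_heights {x : ℝ} (hx : 1 < x) : ∃ C, 0 ≤ C ∧ ∀ lo hi δ₁ δ₂ : ℝ, 3 ≤ lo →
    lo < hi → 0 < δ₁ → δ₁ ≤ 1 → 0 < δ₂ → δ₂ ≤ 1 →
    (∀ ρ, xiFn ρ = 0 → δ₁ ≤ |(|ρ.im| - lo)|) → (∀ ρ, xiFn ρ = 0 → δ₂ ≤ |(|ρ.im| - hi)|) →
      ‖powSum x hi - powSum x lo + ((lamReal x * (hi - lo) / (2 * π) : ℝ) : ℂ)‖ ≤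
        C * (ell lo / δ₁ + ell hi / δ₂) := by
  obtain ⟨CR, hCR, hR⟩ := exists_integral_right hx
  obtain ⟨CL, hCL, hL⟩ := exists_integral_left_line hx
  obtain ⟨CH, hCH, hH⟩ := exists_horizontal_shift hx.le
  refine ⟨CH + CL + CR, by positivity,
    fun lo hi δ₁ δ₂ hlo hlt h1 h1' h2 h2' g1 g2 => ?_⟩
  have hord : ∀ t δ : ℝ, 0 < t → 0 < δ → (∀ ρ, xiFn ρ = 0 → δ ≤ |(|ρ.im| - t)|) →
      ∀ ρ, xiFn ρ = 0 → ρ.im ≠ t := fun t δ ht hδ g ρ hρ he => by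
    have := g ρ hρ
    rw [he, abs_of_pos ht, sub_self, abs_zero] at this
    linarith
  have hbox := boxInt_shiftFn (x := x) (by linarith) (by linarith) hlt
    (hord lo δ₁ (by linarith) h1 g1) (hord hi δ₂ (by linarith) h2 g2)
  obtain ⟨c, hc⟩ : ∃ c, c = (lo + hi) / 2 := ⟨_, rfl⟩
  obtain ⟨K, hK⟩ : ∃ K, K = (hi - lo) / 2 := ⟨_, rfl⟩
  obtain ⟨f, hf⟩ : ∃ f : ℂ → ℂ, f = fun w => (x : ℂ) ^ w * negLogDeriv w := ⟨_, rfl⟩
  have ev : ∀ σ : ℝ, (∫ y in (-K)..K, shiftFn x c ((σ : ℂ) + (y : ℂ) * I)) =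
      ∫ v in lo..hi, f ((σ : ℂ) + (v : ℂ) * I) := fun σ => by
    rw [show lo = -K + c by rw [hc, hK]; ring, show hi = K + c by rw [hc, hK]; ring,
      ← intervalIntegral.integral_comp_add_right (fun v : ℝ => f ((σ : ℂ) + (v : ℂ) * I)) c]
    refine intervalIntegral.integral_congr fun y _ => ?_
    simp only [hf, shiftFn]
    rw [show (σ : ℂ) + ((y + c : ℝ) : ℂ) * I = (σ : ℂ) + (y : ℂ) * I + (c : ℂ) * I by
      push_cast; ring]
  have eh : ∀ p t : ℝ, p + c = t → (∫ u in (-1 / 2 : ℝ)..3 / 2,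
      shiftFn x c ((u : ℂ) + (p : ℂ) * I)) =
        ∫ u in (-1 / 2 : ℝ)..3 / 2, f ((u : ℂ) + (t : ℂ) * I) := fun p t ht => by
    refine intervalIntegral.integral_congr fun u _ => ?_
    simp only [hf, shiftFn, ← ht]
    rw [show (u : ℂ) + ((p + c : ℝ) : ℂ) * I = (u : ℂ) + (p : ℂ) * I + (c : ℂ) * I by
      push_cast; ring]
  rw [← hc, ← hK, boxInt, ev, ev, eh (-K) lo (by rw [hc, hK]; ring),
    eh K hi (by rw [hc, hK]; ring)] at hbox
  subst hf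
  obtain ⟨B₁, hB₁⟩ : ∃ B, B = ∫ u in (-1 / 2 : ℝ)..3 / 2,
      (x : ℂ) ^ ((u : ℂ) + (lo : ℂ) * I) * negLogDeriv ((u : ℂ) + (lo : ℂ) * I) := ⟨_, rfl⟩
  obtain ⟨B₂, hB₂⟩ : ∃ B, B = ∫ u in (-1 / 2 : ℝ)..3 / 2,
      (x : ℂ) ^ ((u : ℂ) + (hi : ℂ) * I) * negLogDeriv ((u : ℂ) + (hi : ℂ) * I) := ⟨_, rfl⟩
  obtain ⟨R, hRd⟩ : ∃ R, R = ∫ v in lo..hi, (x : ℂ) ^ (((3 / 2 : ℝ) : ℂ) + (v : ℂ) * I) *
      negLogDeriv (((3 / 2 : ℝ) : ℂ) + (v : ℂ) * I) := ⟨_, rfl⟩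
  obtain ⟨L, hLd⟩ : ∃ L, L = ∫ v in lo..hi, (x : ℂ) ^ (((-1 / 2 : ℝ) : ℂ) + (v : ℂ) * I) *
      negLogDeriv (((-1 / 2 : ℝ) : ℂ) + (v : ℂ) * I) := ⟨_, rfl⟩
  simp only [← hB₁, ← hB₂, ← hRd, ← hLd] at hbox
  have hπ : (2 * π : ℂ) ≠ 0 := mul_ne_zero two_ne_zero (ofReal_ne_zero.2 Real.pi_ne_zero)
  have key : powSum x hi - powSum x lo + ((lamReal x * (hi - lo) / (2 * π) : ℝ) : ℂ) =
      (I * (B₁ - B₂) + L - (R - ((lamReal x * (hi - lo) : ℝ) : ℂ))) / (2 * π) := by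
    rw [eq_div_iff hπ, ofReal_div,
      show (((2 * π : ℝ)) : ℂ) = 2 * π by push_cast; ring, add_mul, div_mul_cancel₀ _ hπ]
    linear_combination (-I) * hbox + (2 * π * (powSum x hi - powSum x lo) + R - L) * I_sq
  have bR := hR lo hi
  rw [← hRd] at bR
  have bL := hL lo hi (by linarith) hlt.le
  rw [← hLd] at bL
  have b1 := hH lo δ₁ (by rw [abs_of_pos (by linarith)]; linarith) h1 h1'
    (by rwa [abs_of_pos (show 0 < lo by linarith)])
  rw [← hB₁] at b1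
  have b2 := hH hi δ₂ (by rw [abs_of_pos (by linarith)]; linarith) h2 h2'
    (by rwa [abs_of_pos (show 0 < hi by linarith)])
  rw [← hB₂] at b2
  rw [key, norm_div, norm_mul, RCLike.norm_ofNat, Complex.norm_real, Real.norm_eq_abs,
    abs_of_pos Real.pi_pos]
  refine (div_le_self (norm_nonneg _) (by linarith [Real.two_le_pi])).trans ?_
  have b3 : ‖I * (B₁ - B₂)‖ ≤ CH * (ell lo / δ₁) + CH * (ell hi / δ₂) := by
    rw [norm_mul, norm_I, one_mul]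
    exact (norm_sub_le _ _).trans (add_le_add b1 b2)
  refine (norm_sub_le _ _).trans ((add_le_add ((norm_add_le _ _).trans (add_le_add b3 bL))
    bR).trans ?_)
  have e1 : ell hi ≤ ell hi / δ₂ := le_div_self (ell_pos hi).le h2 h2'
  have e2 : 0 ≤ ell lo / δ₁ := (div_pos (ell_pos lo) h1).le
  have e3 := four_le_ell hi
  nlinarith [mul_le_mul_of_nonneg_left e1 hCL, mul_nonneg hCL e2, mul_nonneg hCR e2,
    mul_le_mul_of_nonneg_left (show 1 ≤ ell hi / δ₂ by linarith) hCR]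

/-- **Landau's formula.** -/
theorem exists_landau {x : ℝ} (hx : 1 < x) : ∃ C, 0 ≤ C ∧ ∀ T : ℝ, 2 ≤ T →
    ‖powSum x T + ((T / (2 * π) * lamReal x : ℝ) : ℂ)‖ ≤ C * Real.log T ^ 2 := by
  obtain ⟨C, hC, hmain⟩ := exists_landau_heights hx
  obtain ⟨c, hc, hheight⟩ := exists_good_height
  obtain ⟨K, hK, hshort⟩ := exists_zeroCount_succ
  choose H hH1 hH2 hgap using hheight
  obtain ⟨d, hd⟩ : ∃ d, d = min c 1 := ⟨_, rfl⟩
  have hd0 : 0 < d := hd ▸ lt_min hc one_pos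
  have hδ : ∀ m : ℕ, 0 < d / ell m ∧ d / ell m ≤ 1 ∧
      ∀ ρ, xiFn ρ = 0 → d / ell m ≤ |(|ρ.im| - H m)| := fun m => by
    refine ⟨div_pos hd0 (ell_pos _), ?_, fun ρ hρ => le_trans ?_ (hgap m ρ hρ)⟩
    · rw [div_le_one (ell_pos _)]
      linarith [four_le_ell (m : ℝ), hd ▸ min_le_right c 1]
    · exact div_le_div_of_nonneg_right (hd ▸ min_le_left c 1) (ell_pos _).le
  have hH3 := hH1 3
  have hH4 := hH2 3
  norm_num at hH3 hH4
  obtain ⟨Λx, hΛx⟩ : ∃ l, l = |lamReal x| := ⟨_, rfl⟩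
  have hΛ0 : 0 ≤ Λx := hΛx ▸ abs_nonneg _
  have hell : 0 < ell (H 3) ∧ 0 < ell (3 : ℝ) := ⟨ell_pos _, ell_pos _⟩
  obtain ⟨A, hA⟩ : ∃ A, A = C * (ell (H 3) * ell (3 : ℝ) / d) + x * zeroCount (H 3) +
      5 * Λx + x * zeroCount 5 := ⟨_, rfl⟩
  have hA0 : 0 ≤ A := by
    rw [hA]
    have : 0 ≤ ell (H 3) * ell (3 : ℝ) / d := (div_pos (mul_pos hell.1 hell.2) hd0).le
    positivity
  refine ⟨4 * A + 49 * (4 * C / d + 2 * (x * K)), by positivity, fun T hT => ?_⟩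
  have hlog : 1 / 2 ≤ Real.log T := by
    linarith [Real.log_two_gt_d9, Real.log_le_log two_pos hT]
  have hlog2 : 1 ≤ 4 * Real.log T ^ 2 := by nlinarith
  have hl2 : ell T ^ 2 ≤ 49 * Real.log T ^ 2 := by
    nlinarith [ell_le_log' hT, four_le_ell T]
  have hB : 0 ≤ 4 * C / d + 2 * (x * K) := by positivity
  have hfinal : ∀ r : ℝ, r ≤ A + (4 * C / d + 2 * (x * K)) * ell T ^ 2 →
      r ≤ (4 * A + 49 * (4 * C / d + 2 * (x * K))) * Real.log T ^ 2 := fun r hr => by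
    nlinarith [mul_le_mul_of_nonneg_left hlog2 hA0, mul_le_mul_of_nonneg_left hl2 hB]
  refine hfinal _ ?_
  have hTl : ∀ r : ℝ, |r| ≤ 5 → ‖((r / (2 * π) * lamReal x : ℝ) : ℂ)‖ ≤ 5 * Λx := fun r hr => by
    rw [Complex.norm_real, Real.norm_eq_abs, abs_mul, ← hΛx, abs_div,
      abs_of_pos (show 0 < 2 * π by positivity)]
    refine mul_le_mul_of_nonneg_right ((div_le_self (abs_nonneg _) ?_).trans hr) hΛ0
    linarith [Real.two_le_pi]
  rcases lt_or_ge T 5 with hT5 | hT5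
  · have h1 : ‖powSum x T‖ ≤ x * zeroCount 5 := (norm_powSum_le hx.le).trans
      (mul_le_mul_of_nonneg_left (Nat.cast_le.2 (zeroCount_mono hT5.le)) (by linarith))
    have h2 := hTl T (by rw [abs_of_pos (by linarith)]; linarith)
    have h3 : 0 ≤ C * (ell (H 3) * ell (3 : ℝ) / d) + x * zeroCount (H 3) := by
      have : 0 ≤ ell (H 3) * ell (3 : ℝ) / d := (div_pos (mul_pos hell.1 hell.2) hd0).le
      positivity
    refine (norm_add_le _ _).trans ?_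
    nlinarith [mul_nonneg hB (sq_nonneg (ell T))]
  obtain ⟨m, hm⟩ : ∃ m, m = ⌊T⌋₊ := ⟨_, rfl⟩
  have hm1 : (m : ℝ) ≤ T := hm ▸ Nat.floor_le (by linarith)
  have hm2 : T < (m : ℝ) + 1 := hm ▸ Nat.lt_floor_add_one T
  have hm5 : (5 : ℝ) ≤ m := by
    have : 5 ≤ m := hm ▸ Nat.le_floor (by push_cast; linarith)
    exact_mod_cast this
  have hm3 := hH1 m
  have hm4 := hH2 m
  obtain ⟨p1, p2, p3⟩ := hδ 3
  obtain ⟨q1, q2, q3⟩ := hδ m
  have hb := hmain (H 3) (H m) _ _ hH3 (by linarith) p1 p2 q1 q2 p3 q3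
  rw [Nat.cast_ofNat, div_div_eq_mul_div, div_div_eq_mul_div] at hb
  have hlm : ell (m : ℝ) ≤ ell T :=
    ell_mono (by rw [Nat.abs_cast, abs_of_pos (show 0 < T by linarith)]; exact hm1)
  have hlh : ell (H m) ≤ 5 / 4 * ell T := ell_near (by rw [abs_le]; constructor <;> linarith)
  have h1 : ell (H m) * ell (m : ℝ) / d ≤ 2 * ell T ^ 2 / d := by
    refine div_le_div_of_nonneg_right ?_ hd0.le
    nlinarith [mul_le_mul hlh hlm (ell_pos _).le (by linarith [four_le_ell T]),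
      four_le_ell T]
  have hdiff : ‖powSum x T - powSum x (H m)‖ ≤ x * (K * ell T) := by
    have h0 := hshort m (Nat.cast_nonneg m)
    have hs : ∀ S U : ℝ, (m : ℝ) ≤ S → S ≤ U → U ≤ (m : ℝ) + 1 →
        x * ((zeroCount U : ℝ) - zeroCount S) ≤ x * (K * ell T) := fun S U h1 h2 h3 => by
      refine mul_le_mul_of_nonneg_left ?_ (by linarith)
      have a1 : (zeroCount (m : ℝ) : ℝ) ≤ zeroCount S := Nat.cast_le.2 (zeroCount_mono h1)
      have a2 : (zeroCount U : ℝ) ≤ zeroCount ((m : ℝ) + 1) := Nat.cast_le.2 (zeroCount_mono h3)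
      nlinarith [mul_le_mul_of_nonneg_left hlm hK]
    rcases le_total (H m) T with h | h
    · exact (norm_powSum_sub_le hx.le h).trans (hs _ _ hm3 h hm2.le)
    · rw [norm_sub_rev]
      exact (norm_powSum_sub_le hx.le h).trans (hs _ _ hm1 h hm4)
  have h3 := hTl (T - H m + H 3) (by rw [abs_le]; constructor <;> linarith)
  have e : powSum x T + ((T / (2 * π) * lamReal x : ℝ) : ℂ) =
      (powSum x T - powSum x (H m)) +
        (powSum x (H m) - powSum x (H 3) + ((lamReal x * (H m - H 3) / (2 * π) : ℝ) : ℂ)) +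
        (powSum x (H 3) + (((T - H m + H 3) / (2 * π) * lamReal x : ℝ) : ℂ)) := by
    push_cast
    ring
  rw [e]
  refine norm_add₃_le.trans ?_
  have h4 := (norm_add_le (powSum x (H 3))
    (((T - H m + H 3) / (2 * π) * lamReal x : ℝ) : ℂ)).trans
      (add_le_add (norm_powSum_le hx.le) h3)
  have h5 : C * (2 * ell T ^ 2 / d) ≤ 4 * C / d * ell T ^ 2 := by
    rw [div_mul_eq_mul_div, mul_div_assoc']
    refine div_le_div_of_nonneg_right ?_ hd0.le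
    nlinarith [mul_nonneg hC (sq_nonneg (ell T))]
  have h6 : K * ell T ≤ K * ell T ^ 2 := by
    refine mul_le_mul_of_nonneg_left ?_ hK
    nlinarith [four_le_ell T]
  nlinarith [mul_le_mul_of_nonneg_left h1 hC,
    mul_le_mul_of_nonneg_left h6 (show 0 ≤ x by linarith),
    mul_nonneg (show 0 ≤ x by linarith) (Nat.cast_nonneg (zeroCount 5) (α := ℝ)),
    mul_nonneg (show 0 ≤ x by linarith) (mul_nonneg hK (sq_nonneg (ell T)))]

end FA.ZeroOrdinates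

end
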