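import Fermat.Agent.ExplicitFormula.Contour
import Fermat.Agent.BohrLandau.Zeros

/-!
# The residues in Landau's formula

The integral of `x ^ s (-ζ'/ζ) s` round `[-1/2, 3/2] × [lo, hi]` is `-2πi ∑ x ^ ρ` over the zeros
with `lo < im ρ < hi`.
-/

set_option autoImplicit false

noncomputable section

namespace FA.ZeroOrdinates

open Complex Set FA.RiemannMangoldt FA.ExplicitFormula FA.BohrLandau
open scoped Real

/-- The zeros with `0 < im ρ ≤ T`. -/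
def zerosTo (T : ℝ) : Finset ℂ := (finite_zetaZeros T).toFinset

theorem mem_zerosTo {T : ℝ} {ρ : ℂ} : ρ ∈ zerosTo T ↔ xiFn ρ = 0 ∧ 0 < ρ.im ∧ ρ.im ≤ T := by
  rw [zerosTo, Set.Finite.mem_toFinset, mem_zetaZeros_iff]

theorem zerosTo_mono {S T : ℝ} (h : S ≤ T) : zerosTo S ⊆ zerosTo T := fun ρ hρ => by
  rw [mem_zerosTo] at hρ ⊢
  exact ⟨hρ.1, hρ.2.1, hρ.2.2.trans h⟩

theorem zetaMult_eq_zeroWeight {T : ℝ} {ρ : ℂ} (hρ : ρ ∈ zerosTo T) :
    zetaMult ρ = zeroWeight ρ := by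
  rw [mem_zerosTo] at hρ
  obtain ⟨h0, h1⟩ := xiFn_zero_strip hρ.1
  exact (analyticOrderNatAt_xiFn h0 fun h => by rw [h] at h1; simp at h1).symm

/-- `∑ x ^ ρ` over the zeros with `0 < im ρ ≤ T`, with multiplicity. -/
def powSum (x T : ℝ) : ℂ := ∑ ρ ∈ zerosTo T, (zetaMult ρ : ℂ) * (x : ℂ) ^ ρ

/-- The integrand, moved down by `c`. -/
def shiftFn (x c : ℝ) (s : ℂ) : ℂ :=
  (x : ℂ) ^ (s + (c : ℂ) * I) * negLogDeriv (s + (c : ℂ) * I)

/-- **The residues.** -/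
theorem boxInt_shiftFn {x lo hi : ℝ} (hx : 0 < x) (hlo : 0 < lo) (hle : lo < hi)
    (hlo' : ∀ ρ, xiFn ρ = 0 → ρ.im ≠ lo) (hhi' : ∀ ρ, xiFn ρ = 0 → ρ.im ≠ hi) :
    boxInt (shiftFn x ((lo + hi) / 2)) (-1 / 2) (3 / 2) ((hi - lo) / 2) =
      -(2 * π * I) * (powSum x hi - powSum x lo) := by
  classical
  obtain ⟨c, hc⟩ : ∃ c, c = (lo + hi) / 2 := ⟨_, rfl⟩
  obtain ⟨H, hH⟩ : ∃ H, H = (hi - lo) / 2 := ⟨_, rfl⟩
  rw [← hc, ← hH]
  have hH0 : 0 < H := by linarith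
  obtain ⟨Z, h, hh, he, hZ, hne, hcount⟩ := exists_xi_factor (R := hi + 5) (by linarith)
  have hball : ∀ w : ℂ, w.re ∈ Icc (-1 / 2 : ℝ) (3 / 2) → w.im ∈ Icc lo hi →
      w ∈ Metric.closedBall (2 : ℂ) (hi + 5) := fun w h1 h2 => by
    rw [Metric.mem_closedBall, dist_eq_norm]
    refine (norm_le_abs_re_add_abs_im _).trans ?_
    simp only [sub_re, sub_im, re_ofNat, im_ofNat, sub_zero]
    rw [abs_of_neg (by linarith [h1.2]), abs_of_pos (by linarith [h2.1])]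
    linarith [h1.1, h2.2]
  have hx' : (x : ℂ) ≠ 0 := ofReal_ne_zero.2 hx.ne'
  have hre : ∀ s : ℂ, (s + (c : ℂ) * I).re = s.re := fun s => by simp
  have him : ∀ s : ℂ, (s + (c : ℂ) * I).im = s.im + c := fun s => by simp
  have hin : ∀ s : ℂ, s.im ∈ Icc (-H) H → (s + (c : ℂ) * I).im ∈ Icc lo hi := fun s hs => by
    rw [him]
    exact ⟨by linarith [hs.1], by linarith [hs.2]⟩
  obtain ⟨φ, hφ⟩ : ∃ φ : ℂ → ℂ, φ = fun s => (x : ℂ) ^ (s + (c : ℂ) * I) := ⟨_, rfl⟩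
  have hφd : Differentiable ℂ φ := fun s => hφ ▸
    (differentiableAt_id.add_const _).const_cpow (Or.inl hx')
  obtain ⟨U, hU⟩ : ∃ U : Set ℂ, U = {s | -3 / 2 < s.re ∧ 0 < s.im + c} ∩
      {s | h (s + (c : ℂ) * I) ≠ 0} := ⟨_, rfl⟩
  have hUo : IsOpen U := hU ▸ ((isOpen_lt continuous_const continuous_re).inter
    (isOpen_lt continuous_const (continuous_im.add continuous_const))).inter
      (isOpen_ne_fun (hh.continuous.comp (continuous_id.add continuous_const)) continuous_const)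
  have hbox : ∀ s : ℂ, s.re ∈ Icc (-1 / 2 : ℝ) (3 / 2) → s.im ∈ Icc (-H) H → s ∈ U :=
    fun s h1 h2 => hU ▸ ⟨⟨by linarith [h1.1], by linarith [h2.1]⟩,
      hne _ (hball _ (by rwa [hre]) (hin s h2))⟩
  obtain ⟨G, hG⟩ : ∃ G : ℂ → ℂ, G = fun s => φ s * (-(deriv h (s + (c : ℂ) * I) /
      h (s + (c : ℂ) * I)) + (s + (c : ℂ) * I - 1)⁻¹ + gammaReg (s + (c : ℂ) * I)) := ⟨_, rfl⟩
  have hGd : ∀ s : ℂ, s.re ∈ Icc (-1 / 2 : ℝ) (3 / 2) → s.im ∈ Icc (-H) H →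
      DifferentiableAt ℂ G s := fun s h1 h2 => by
    have h3 := hbox s h1 h2
    rw [hU] at h3
    have hne1 : s + (c : ℂ) * I - 1 ≠ 0 := fun h0 => by
      have := congrArg Complex.im h0
      rw [sub_im, him, one_im, zero_im] at this
      linarith [h3.1.2]
    have hsh : DifferentiableAt ℂ (fun u : ℂ => u + (c : ℂ) * I) s :=
      differentiableAt_id.add_const _
    rw [hG]
    exact (hφd s).mul
      ((((hh.analyticAt _).deriv.differentiableAt.comp s hsh).div ((hh _).comp s hsh) h3.2).neg.add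
        ((hsh.sub_const 1).inv hne1) |>.add
        ((differentiableAt_gammaReg (by rw [hre]; linarith [h3.1.1])).comp s hsh))
  have hedge : ∀ s ∈ boxEdges (-1 / 2) (3 / 2) H,
      s.re ∈ Icc (-1 / 2 : ℝ) (3 / 2) ∧ s.im ∈ Icc (-H) H := fun s hs => by
    obtain ⟨h1, h2, -⟩ := hs
    rw [uIcc_of_le (by norm_num)] at h1
    rw [uIcc_of_le (by linarith)] at h2
    exact ⟨h1, h2⟩
  have hpole : ∀ ρ ∈ Z, (-1 / 2 : ℝ) < (ρ - (c : ℂ) * I).re ∧ (ρ - (c : ℂ) * I).re < 3 / 2 ∧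
      |(ρ - (c : ℂ) * I).im| ≠ H := fun ρ hρ => by
    obtain ⟨a, b⟩ := xiFn_zero_strip (hZ ρ hρ)
    have e : (ρ - (c : ℂ) * I).im = ρ.im - c := by simp
    refine ⟨by simp; linarith, by simp; linarith, fun h0 => ?_⟩
    rw [e] at h0
    rcases abs_cases (ρ.im - c) with ⟨h1, -⟩ | ⟨h1, -⟩ <;> rw [h1] at h0
    · exact hhi' ρ (hZ ρ hρ) (by linarith)
    · exact hlo' ρ (hZ ρ hρ) (by linarith)
  obtain ⟨P, hP⟩ : ∃ P : ℂ → ℂ → ℂ, P = fun ρ s => -1 * (φ s / (s - (ρ - (c : ℂ) * I))) :=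
    ⟨_, rfl⟩
  have hzne : ∀ s ∈ boxEdges (-1 / 2) (3 / 2) H, ∀ ρ ∈ Z, s - (ρ - (c : ℂ) * I) ≠ 0 :=
    fun s hs ρ hρ => sub_ne_zero.2 (interior_not_edge (hpole ρ hρ).1 (hpole ρ hρ).2.1
      (hpole ρ hρ).2.2 hH0.le hs)
  obtain ⟨hZc, hZsum⟩ := boxInt_multiset_sum (f := P) (a := -1 / 2) (b := 3 / 2) (T := H) Z
    fun ρ hρ s hs => hP ▸ continuousAt_const.mul ((hφd s).continuousAt.div
      (continuousAt_id.sub continuousAt_const) (hzne s hs ρ hρ))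
  rw [boxInt_congr (G := fun s => G s + (Z.map fun ρ => P ρ s).sum) fun s hs => ?_,
    boxInt_add (G := fun s => (Z.map fun ρ => P ρ s).sum)
      (fun s hs => (hGd s (hedge s hs).1 (hedge s hs).2).continuousAt) hZc,
    boxInt_eq_zero (by norm_num) hH0.le hGd, zero_add, hZsum]
  · have hmap : (Z.map fun ρ => boxInt (P ρ) (-1 / 2) (3 / 2) H) =
        Z.map fun ρ => -(2 * π * I) * (if |ρ.im - c| < H then (x : ℂ) ^ ρ else 0) := by
      refine Multiset.map_congr rfl fun ρ hρ => ?_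
      rw [hP]
      simp only
      rw [boxInt_const_mul, boxInt_residue isOpen_univ hφd.differentiableOn
        (fun s _ _ => Set.mem_univ s) hH0.le (hpole ρ hρ).1 (hpole ρ hρ).2.1 (hpole ρ hρ).2.2,
        show (ρ - (c : ℂ) * I).im = ρ.im - c by simp]
      split_ifs
      · rw [hφ]
        simp only [sub_add_cancel]
        ring
      · ring
    rw [hmap, Multiset.sum_map_mul_left]
    congr 1
    rw [Finset.sum_multiset_map_count, powSum, powSum,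
      ← Finset.sum_sdiff (zerosTo_mono hle.le), add_sub_cancel_right]
    simp only [smul_ite, smul_zero]
    rw [← Finset.sum_filter]
    have hmem : ∀ ρ : ℂ, xiFn ρ = 0 → lo ≤ ρ.im → ρ.im ≤ hi →
        ρ ∈ Metric.closedBall (2 : ℂ) (hi + 5) := fun ρ hρ h1 h2 => by
      obtain ⟨a, b⟩ := xiFn_zero_strip hρ
      exact hball ρ ⟨by linarith, by linarith⟩ ⟨h1, h2⟩
    refine Finset.sum_congr ?_ fun ρ hρ => ?_
    · ext ρ
      rw [Finset.mem_filter, Multiset.mem_toFinset, Finset.mem_sdiff, mem_zerosTo, mem_zerosTo,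
        abs_lt]
      constructor
      · rintro ⟨hρ, h1, h2⟩
        exact ⟨⟨hZ ρ hρ, by linarith, by linarith⟩, fun h3 => by linarith [h3.2.2]⟩
      · rintro ⟨⟨hρ, h1, h2⟩, h3⟩
        have h4 : lo < ρ.im := lt_of_not_ge fun h5 => h3 ⟨hρ, h1, h5⟩
        have h6 : ρ.im < hi := lt_of_le_of_ne h2 (hhi' ρ hρ)
        refine ⟨?_, by linarith, by linarith⟩
        rw [← Multiset.one_le_count_iff_mem, ← hcount ρ (hmem ρ hρ h4.le h2)]
        exact one_le_zeroWeight hρ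
    · rw [Finset.mem_sdiff] at hρ
      have h1 := hρ.1
      rw [mem_zerosTo] at h1
      have h4 : lo < ρ.im := lt_of_not_ge fun h5 =>
        hρ.2 (mem_zerosTo.2 ⟨h1.1, h1.2.1, h5⟩)
      rw [zetaMult_eq_zeroWeight hρ.1, ← hcount ρ (hmem ρ h1.1 h4.le h1.2.2), nsmul_eq_mul,
        zeroWeight]
  · obtain ⟨h1, h2⟩ := hedge s hs
    have hz : ∀ ρ ∈ Z, s + (c : ℂ) * I ≠ ρ := fun ρ hρ h0 =>
      hzne s hs ρ hρ (by rw [← h0]; ring)
    have hm : (Z.map fun ρ => P ρ s) = Z.map fun ρ => -φ s * (s + (c : ℂ) * I - ρ)⁻¹ :=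
      Multiset.map_congr rfl fun ρ hρ => by
        rw [hP]
        simp only
        rw [show s - (ρ - (c : ℂ) * I) = s + (c : ℂ) * I - ρ by ring]
        ring
    dsimp only
    rw [hm, Multiset.sum_map_mul_left, shiftFn, negLogDeriv,
      xiLogDeriv_factor hh he hz (hne _ (hball _ (by rwa [hre]) (hin s h2))), hG, hφ]
    ring

end FA.ZeroOrdinates

end
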